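/-
S56 / block EC (global Euler characteristic formula) : SHARED DEFINITIONS (helper114, EC chief).

* `IsConj c`          : `c : GQ` is a complex conjugation.
* `ECProp S c N`      : finiteness of `H^i_S(N)`, `i ≤ 2`, and
                        `#H^0_S(N) * #H^2_S(N) * #N^{c = -1} = #H^1_S(N)`.
* `polyAdd g P`       : the additive endomorphism `P(g)` for `g : A →+ A`, `P : ℤ[X]`.
* `polyMap γ P`       : the equivariant endomorphism `P(γ)` for `γ : A →+[G] A`.
* `IsIdemPoly p m P`  : `P² ≡ P` modulo `(p, X^m - 1)`.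
* `rightMul s`        : right multiplication `D →[D] D`.
Definitions and their defining lemmas only.
-/
import Fermat.Agent.S55.Formal.Contract
import Fermat.Agent.S55.Coh.SetDefs

set_option autoImplicit false

namespace Fermat.Agent.S56.EC

open Fermat.Agent.S55 Polynomial

/-! ### Complex conjugation and the statement -/

/-- `c` is the complex conjugation attached to some embedding `Qb → ℂ`. -/
def IsConj (c : GQ) : Prop :=
  ∃ ι : Qb →+* ℂ, ∀ x : Qb, ι (c x) = (starRingEnd ℂ) (ι x)

/-- The `(-1)`-eigenspace of `c`, as a type. -/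
abbrev Minus {G : Type} [Group G] (c : G) (N : Type) [AddCommGroup N] [DistribMulAction G N] :
    Type := {n : N // c • n = -n}

/-- The global Euler characteristic formula for `N`, in cardinalities. -/
def ECProp (S : Finset Nat.Primes) (c : GQ) (N : Type) [AddCommGroup N]
    [DistribMulAction GQ N] : Prop :=
  Finite (Hsm (lvlS S) N 0) ∧ Finite (Hsm (lvlS S) N 1) ∧ Finite (Hsm (lvlS S) N 2) ∧
    Nat.card (Hsm (lvlS S) N 0) * Nat.card (Hsm (lvlS S) N 2) * Nat.card (Minus c N) =
      Nat.card (Hsm (lvlS S) N 1)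

/-! ### Polynomials in an endomorphism -/

section poly

variable {A B : Type} [AddCommGroup A] [AddCommGroup B]

/-- `P(g)` for an additive endomorphism `g`. -/
noncomputable def polyAdd (g : A →+ A) (P : ℤ[X]) : A →+ A :=
  Polynomial.aeval (R := ℤ) (A := AddMonoid.End A) g P

@[simp] theorem polyAdd_X (g : A →+ A) (a : A) : polyAdd g X a = g a := by
  unfold polyAdd; rw [aeval_X]

@[simp] theorem polyAdd_C (g : A →+ A) (n : ℤ) (a : A) : polyAdd g (C n) a = n • a := by
  unfold polyAdd
  rw [aeval_C, algebraMap_int_eq, eq_intCast]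
  exact AddMonoid.End.intCast_apply n a

@[simp] theorem polyAdd_zero (g : A →+ A) (a : A) : polyAdd g 0 a = 0 := by
  unfold polyAdd; rw [map_zero]; rfl

@[simp] theorem polyAdd_one (g : A →+ A) (a : A) : polyAdd g 1 a = a := by
  unfold polyAdd; rw [map_one]; rfl

theorem polyAdd_add (g : A →+ A) (P Q : ℤ[X]) (a : A) :
    polyAdd g (P + Q) a = polyAdd g P a + polyAdd g Q a := by
  unfold polyAdd; rw [map_add]; rfl

theorem polyAdd_sub (g : A →+ A) (P Q : ℤ[X]) (a : A) :
    polyAdd g (P - Q) a = polyAdd g P a - polyAdd g Q a := by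
  unfold polyAdd; rw [map_sub]; rfl

theorem polyAdd_mul (g : A →+ A) (P Q : ℤ[X]) (a : A) :
    polyAdd g (P * Q) a = polyAdd g P (polyAdd g Q a) := by
  unfold polyAdd; rw [map_mul]; rfl

theorem polyAdd_X_pow (g : A →+ A) (k : ℕ) (a : A) : polyAdd g (X ^ k) a = g^[k] a := by
  induction k generalizing a with
  | zero => simp
  | succ k ih => rw [pow_succ, polyAdd_mul, polyAdd_X, ih, Function.iterate_succ_apply]

/-- Naturality: a map intertwining `g` and `g'` intertwines `P(g)` and `P(g')`. -/
theorem polyAdd_natural {F : Type} [FunLike F A B] [AddMonoidHomClass F A B] (f : F)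
    (g : A →+ A) (g' : B →+ B) (h : ∀ a, f (g a) = g' (f a)) (P : ℤ[X]) (a : A) :
    f (polyAdd g P a) = polyAdd g' P (f a) := by
  induction P using Polynomial.induction_on generalizing a with
  | C n => rw [polyAdd_C, polyAdd_C, map_zsmul]
  | add P Q hP hQ => rw [polyAdd_add, polyAdd_add, map_add, hP, hQ]
  | monomial n k ih =>
    rw [pow_succ, ← mul_assoc, polyAdd_mul g (C k * X ^ n) X, polyAdd_mul g' (C k * X ^ n) X,
      polyAdd_X, polyAdd_X, ih, h]

/-- `P² ≡ P` modulo `(p, X^m - 1)`. -/
def IsIdemPoly (p m : ℕ) (P : ℤ[X]) : Prop :=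
  ∃ Q R : ℤ[X], P * P - P = C (p : ℤ) * Q + (X ^ m - 1) * R

/-- `P(g)` is idempotent on a group killed by `p` on which `g^m = 1`. -/
theorem polyAdd_idem {p m : ℕ} {P : ℤ[X]} (hP : IsIdemPoly p m P) (g : A →+ A)
    (hp : ∀ a : A, p • a = 0) (hg : ∀ a : A, g^[m] a = a) (a : A) :
    polyAdd g P (polyAdd g P a) = polyAdd g P a := by
  obtain ⟨Q, R, h⟩ := hP
  have h1 : polyAdd g (P * P - P) a = 0 := by
    rw [h, polyAdd_add, polyAdd_mul, polyAdd_mul, polyAdd_C, polyAdd_sub, polyAdd_X_pow, hg,
      polyAdd_one, sub_self, add_zero, natCast_zsmul, hp]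
  rw [polyAdd_sub, polyAdd_mul, sub_eq_zero] at h1
  exact h1

end poly

section equivariant

variable {G : Type} [Group G] {A B : Type} [AddCommGroup A] [DistribMulAction G A]
  [AddCommGroup B] [DistribMulAction G B]

/-- `P(γ)` for an equivariant endomorphism `γ`. -/
noncomputable def polyMap (γ : A →+[G] A) (P : ℤ[X]) : A →+[G] A where
  toFun := polyAdd (γ : A →+ A) P
  map_smul' g a :=
    polyAdd_natural (DistribSMul.toAddMonoidHom A g) (γ : A →+ A) (γ : A →+ A)
      (fun a => (map_smul γ g a).symm) P a |>.symm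
  map_zero' := map_zero _
  map_add' := map_add _

theorem polyMap_apply (γ : A →+[G] A) (P : ℤ[X]) (a : A) :
    polyMap γ P a = polyAdd (γ : A →+ A) P a := rfl

/-- Naturality of `polyMap`. -/
theorem polyMap_natural (f : A →+[G] B) (γ : A →+[G] A) (γ' : B →+[G] B)
    (h : ∀ a, f (γ a) = γ' (f a)) (P : ℤ[X]) (a : A) :
    f (polyMap γ P a) = polyMap γ' P (f a) :=
  polyAdd_natural f (γ : A →+ A) (γ' : B →+ B) h P a

/-- The module `P(γ) A`. -/
abbrev PolyRange (γ : A →+[G] A) (P : ℤ[X]) : Type := (GSub.range (polyMap γ P)).Mod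

/-- Right multiplication by `s` on the `D`-set `D`. -/
def rightMul {D : Type} [Group D] (s : D) : D →[D] D where
  toFun x := x * s
  map_smul' g x := mul_assoc g x s

@[simp] theorem rightMul_apply {D : Type} [Group D] (s x : D) : rightMul s x = x * s := rfl

end equivariant

end Fermat.Agent.S56.EC
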