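/-
S56 / block EC : FINAL ASSEMBLY (helper114).
`BaseStatement` (= the statement of `Base.ec_base`) + EC-MULT + EC-IND (wrapper) + EC-RED
⟹ `ECProp S c N` for every coefficient module `N`.
-/
import Fermat.Agent.S56.EC.Mult.Main
import Fermat.Agent.S56.EC.Ind.W.Main
import Fermat.Agent.S56.EC.Red.Main

set_option autoImplicit false

namespace Fermat.Agent.S56.EC

open Fermat.Agent.S55 Polynomial

variable {S : Finset Nat.Primes} {p : ℕ} [Fact p.Prime]

/-- The statement of the base case `Base.ec_base`. -/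
def BaseStatement (S : Finset Nat.Primes) (p : ℕ) (c : GQ) : Prop :=
  ∀ U ∈ (lvlS S).carrier, ActsTrivially U (Mu p) →
    ∀ (s : GQ) (hs : ∀ u ∈ U, s⁻¹ * u * s ∈ U) (m : ℕ), ¬ p ∣ m → s ^ m ∈ U →
      ∀ P : ℤ[X], IsIdemPoly p m P →
        ECProp S c (PolyRange (IndMod.pull (Mu p) (cosetRight U s hs)) P)

omit [Fact p.Prime] in
/-- A module of the class `IsK U p`, `U` a level, is a coefficient module. -/
theorem isCoef_of_isK {U : Subgroup GQ} (hU : U ∈ (lvlS S).carrier) {N : Type} [AddCommGroup N]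
    [DistribMulAction GQ N] (hN : Ind.IsK U p N) : IsCoef S p N where
  finite := hN.finite
  ptors := hN.tors
  smooth := ⟨fun a => ⟨U, hU, fun n hn => hN.triv n hn a⟩⟩

/-- `eS` as a multiplicative function on the class `IsK U p`. -/
noncomputable def kFun (hp2 : p ≠ 2) (hpS : ExtCitation.pPrime p ∈ S) (c : GQ) (hc : c * c = 1)
    (U : Subgroup GQ) (hU : U ∈ (lvlS S).carrier) : Ind.KFun GQ U p where
  e N _ _ := eS S c N
  pos _ _ _ hN := eS_pos hp2 hpS c (isCoef_of_isK hU hN)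
  mul _ _ _ _ _ _ _ _ _ _ _ hB h := eS_mul hp2 hpS hc (isCoef_of_isK hU hB) h

/-- **The global Euler characteristic formula**, from the base case. -/
theorem ecProp_of_base (hp2 : p ≠ 2) (hpS : ExtCitation.pPrime p ∈ S) (c : GQ) (hc : c * c = 1)
    (hB : BaseStatement S p c) (N : Type) [AddCommGroup N] [DistribMulAction GQ N]
    (hN : IsCoef S p N) : ECProp S c N := by
  obtain ⟨U, hU, hUN, hUμ⟩ := Mult.exists_level hpS N hN
  have : U.Normal := (lvlS S).normal U hU
  have : U.FiniteIndex := (lvlS S).finiteIndex U hU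
  have : Finite (GQ ⧸ U) := Subgroup.finite_quotient_of_finiteIndex
  have hμ := Bridge.coefMu S hpS
  have hKμ : Ind.IsK U p (Mu p) := ⟨hμ.finite, hμ.ptors, hUμ⟩
  have hKN : Ind.IsK U p N := ⟨hN.finite, hN.ptors, hUN⟩
  rw [ecProp_iff hp2 hpS c hN]
  refine (kFun hp2 hpS c hc U hU).eq_one (fun E A _ _ hA H => Red.base_of_poly E A hA H)
    (Mu p) hKμ (Bridge.cardMu p) ?_ N hKN
  intro s hs m hm hsm P hP
  have hI : Ind.IsK U p (IndMod (GQ ⧸ U) (Mu p)) := by
    refine ⟨(Ind.IsCp.indMod _ hKμ.isCp).finite, (Ind.IsCp.indMod _ hKμ.isCp).tors, ?_⟩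
    intro u hu f
    ext x
    rw [IndMod.smul_apply, hUμ u hu]
    congr 1
    induction x using QuotientGroup.induction_on with
    | H g =>
      show ((u⁻¹ * g : GQ) : GQ ⧸ U) = (g : GQ ⧸ U)
      rw [QuotientGroup.eq]
      have h1 : g⁻¹ * u * g⁻¹⁻¹ ∈ U := Subgroup.Normal.conj_mem inferInstance _ hu _
      have h2 : (u⁻¹ * g)⁻¹ * g = g⁻¹ * u * g⁻¹⁻¹ := by group
      rw [h2]
      exact h1
  have hR : IsCoef S p (PolyRange (IndMod.pull (Mu p) (cosetRight U s hs)) P) :=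
    Mult.isCoef_of_injective (isCoef_of_isK hU hI) (GSub.inclG _) (GSub.inclG_injective _)
  exact (ecProp_iff hp2 hpS c hR).1 (hB U hU hUμ s hs m hm hsm P hP)

end Fermat.Agent.S56.EC
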