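/-
S56 / block EC : from the base case to the interface statement `ECStatement p` (helper114).
-/
import Fermat.Agent.S56.EC.Final
import Fermat.Agent.S56.EC.Base.Dict.ConjBasic
import Fermat.Agent.S56.Interface

set_option autoImplicit false

namespace Fermat.Agent.S56.EC

open Fermat.Agent.S55

/-- `ECStatement p` from the base case for `c = complexConjugation`. -/
theorem ecStatement_of_base (p : ℕ) [Fact p.Prime] (hp2 : p ≠ 2)
    (hB : ∀ S : Finset Nat.Primes, ExtCitation.pPrime p ∈ S →
      BaseStatement S p complexConjugation) : ECStatement p := by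
  have hp : p.Prime := Fact.out
  have hc : IsConj complexConjugation := Base.isConj_complexConjugation
  refine ⟨complexConjugation, hc.mul_self, fun z => Base.IsConj.smul_mu hc hp.pos z, ?_⟩
  rintro S ⟨v, hvS, hvp⟩ N _ _ hN
  have hpS : ExtCitation.pPrime p ∈ S := by
    have : v = ExtCitation.pPrime p := Subtype.ext hvp
    rwa [← this]
  obtain ⟨h0, h1, h2, h3⟩ := ecProp_of_base hp2 hpS _ hc.mul_self (hB S hpS) N hN
  refine ⟨h1, h2, ?_⟩
  rw [← h3]
  have : 0 < Nat.card (Hsm (lvlS S) N 0) := Nat.card_pos
  show Nat.card (Hsm (lvlS S) N 2) * Nat.card (Minus complexConjugation N) ≤ _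
  nlinarith [Nat.zero_le (Nat.card (Hsm (lvlS S) N 2) * Nat.card (Minus complexConjugation N))]

end Fermat.Agent.S56.EC
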