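/-
S56 / block EC : THE EXPORT (helper114, EC chief).
* `EC.ecProp`      : the global Euler characteristic formula for every coefficient module.
* `EC.ecStatement` : the interface statement `ECStatement p` of `S56/Interface.lean`.
-/
import Fermat.Agent.S56.EC.Adapter
import Fermat.Agent.S56.EC.Base.Main

set_option autoImplicit false

namespace Fermat.Agent.S56.EC

open Fermat.Agent.S55

/-- The base case, in the form consumed by `ecProp_of_base`. -/
theorem baseStatement {S : Finset Nat.Primes} {p : ℕ} [Fact p.Prime] (hp2 : p ≠ 2)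
    (hpS : ExtCitation.pPrime p ∈ S) (c : GQ) (hc : IsConj c) : BaseStatement S p c :=
  fun U hU hUμ s hs m hm hsm P hP => Base.ec_base hp2 hpS c hc U hU hUμ s hs m hm hsm P hP

/-- **The global Euler characteristic formula** (Tate): for `p` odd, `p ∈ S`, `c` a complex
conjugation and `N` a finite `𝔽_p[G_{ℚ,S}]`-module, the groups `H^i_S(N)`, `i ≤ 2`, are finite and
`#H⁰_S(N) · #H²_S(N) · #N^{c = -1} = #H¹_S(N)`. -/
theorem ecProp {S : Finset Nat.Primes} {p : ℕ} [Fact p.Prime] (hp2 : p ≠ 2)
    (hpS : ExtCitation.pPrime p ∈ S) (c : GQ) (hc : IsConj c) (N : Type) [AddCommGroup N]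
    [DistribMulAction GQ N] (hN : IsCoef S p N) : ECProp S c N :=
  ecProp_of_base hp2 hpS c hc.mul_self (baseStatement hp2 hpS c hc) N hN

/-- **Block EC of S56.** -/
theorem ecStatement (p : ℕ) [Fact p.Prime] (hp2 : p ≠ 2) : ECStatement p :=
  ecStatement_of_base p hp2 fun _ hpS =>
    baseStatement hp2 hpS _ Base.isConj_complexConjugation

end Fermat.Agent.S56.EC
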